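import Fermat.Agent.MR.C.X.Up
import Fermat.Agent.MR.C.SepB2T
import Fermat.Agent.MR.C.F1H
import Fermat.Agent.MR.Contracts

/-!
# MR / C / X / Fin : `MR.CStatement` is PROVED  (assembly: `exists_prepIn`, `PrepIn.topX_main`, `sepB2_sepT`, `f1h_main`)
-/

set_option autoImplicit false

open ModularCurve AlgebraicCurve

noncomputable section

namespace Fermat.Agent.MR.C

open Fermat.Agent.GR Fermat.Agent.GAL Fermat.Agent.GAL.KL Fermat.Agent.GAL.KLC Fermat.Agent.S24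
open Fermat.Agent.TOR.GB Fermat.Agent.ORD.P2 Fermat.Agent.ORD.P3
open Fermat.Agent.CAR Fermat.Agent.CAR.BK Fermat.Agent.CAR.ON Fermat.Agent.CAR.DESC
open Fermat.Agent.MR.TH Fermat.Agent.MR.A Fermat.Agent.DSC

local notation "Λ" => LaurentSeries Qb

variable {M₁ p : ℕ} [NeZero M₁] [NeZero p] {A : ValuationSubring Qb} {ℓ : ℕ} [NeZero ℓ] {e : ℕ}
  {ζ : Qbˣ} {u h1 : Λ}

/-- (SEP) for the concrete cover. -/
theorem PrepIn.topX_sep (P : PrepIn A M₁ p ℓ e ζ u h1) : TopXSep A M₁ p ζ h1 := by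
  intro h10 H he i k l hkl
  have : Fact p.Prime := ⟨P.hp⟩
  obtain ⟨-, -, -, -, -, -, j, j0, hy, hy0⟩ := f1h_main P.hM P.hp P.hpM A P.hA P.hp2 P.hζ
    (⟨h1 ^ p, P.kh.pow_mem⟩ : FN (M₁ * p)) P.deep P.deep0 P.kh.2.choose_spec rfl H.pow0
  exact sepB2_sepT A P.hM P.hp2 P.hpM P.hA P.hζ H he (fun _ => rfl) P.deep P.deep0
    P.kh.2.choose_spec hy hy0 i k l hkl

/-- **block C.** -/
theorem cStatementX : MR.CStatement := by
  intro M₁ p _ _ hM hp hp5 hpM A hA u u₁ hu hu₁ _ hu₁n h1 h2 h3 h4 _ hU₁ _ hnew₁ c ab hab hab0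
  obtain ⟨ζ, hζ⟩ := Fermat.Agent.GAL.exists_primitiveRoot_Qb p
  have hp2 : p ≠ 2 := by omega
  obtain ⟨ℓ, _, e, c0, h₁, hc0, P⟩ := exists_prepIn hM hp hp2 hpM A hA hζ hu hu₁ hu₁n h1 h2 h3 h4
    hU₁ (hnew₁ hu₁.pow_mem)
  refine P.topX_main P.topX_sep (c := c / c0 ^ p) ?_ hab0
  have e1 : (HahnSeries.C (c / c0 ^ p) : Λ) * (HahnSeries.C c0 * u) ^ p = HahnSeries.C c * u ^ p := by
    rw [mul_pow, ← map_pow, ← mul_assoc, ← map_mul, div_mul_cancel₀ _ (pow_ne_zero p hc0)]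
  rwa [e1]

end Fermat.Agent.MR.C
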