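import Fermat.Agent.MR.C.J.R0
import Fermat.Agent.MR.C.PrepIn
import Fermat.Agent.MR.C.Sect
import Fermat.Agent.MR.C.ValHt
import Fermat.Agent.MR.C.ValInd
import Fermat.Agent.MR.C.AbsValW

/-!
# MR / C / X / Up : `PrepIn` + (SEP)  ⟹  the conclusion of `MR.CStatement`   (independent assembly, prefix `topX_`)
-/

set_option autoImplicit false

open ModularCurve AlgebraicCurve

noncomputable section

namespace Fermat.Agent.MR.C

open Fermat.Agent.GR Fermat.Agent.GAL Fermat.Agent.GAL.KL Fermat.Agent.GAL.KLC Fermat.Agent.S24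
open Fermat.Agent.TOR.GB Fermat.Agent.ORD.P2 Fermat.Agent.ORD.P3
open Fermat.Agent.CAR Fermat.Agent.CAR.BK Fermat.Agent.CAR.ON Fermat.Agent.CAR.DESC
open Fermat.Agent.MR.TH Fermat.Agent.MR.A Fermat.Agent.DSC
open Fermat.Agent.MR.E (HH FixU)

local notation "Λ" => LaurentSeries Qb

variable {M₁ p : ℕ} [NeZero M₁] [NeZero p] {A : ValuationSubring Qb} {ℓ : ℕ} [NeZero ℓ] {e : ℕ}
  {ζ : Qbˣ} {u h1 : Λ}

theorem topX_FS_le (N : ℕ) : FS N ≤ KIH.KF A (IA A) := fun _ hx => KIH.FL_le_KF N hx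

theorem topX_wS_mem (f : FS (M₁ * p)) : wS M₁ p f ∈ KIH.KF A (IA A) :=
  KIH.FL_le_KF (M₁ * p) (wS_mem f)

/-- [F1] in the vocabulary of `PrepIn`. -/
theorem PrepIn.topX_KF (P : PrepIn A M₁ p ℓ e ζ u h1) {h10 : Λ}
    (H : CovHyp (IA A) (FS (M₁ * p)) (wS M₁ p) p (ζ : Qb) h1 h10) :
    h1 ∈ KIH.KF A (IA A) ∧ h10 ∈ KIH.KF A (IA A) ∧
      (∃ j : ℕ, Dp A (lam ζ) (h1 / HahnSeries.C ((ζ : Qb) ^ j)) 0) ∧
      (∃ j : ℕ, Dp A (lam ζ) (h10 / HahnSeries.C ((ζ : Qb) ^ j)) 0) :=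
  sect_deep P.hM P.hp P.hp2 P.hpM A P.hA P.hζ (IA A) P.kh P.deep P.deep0 H.pow0

/-- the hypothesis `he` of `VT`, `vtT`, `covT`, `pdivT`. -/
theorem PrepIn.topX_he (P : PrepIn A M₁ p ℓ e ζ u h1) {h10 : Λ}
    (H : CovHyp (IA A) (FS (M₁ * p)) (wS M₁ p) p (ζ : Qb) h1 h10) :
    ∀ (j : I2) (x : adjF (FS (M₁ * p)) h1), x ≠ 0 → Nrm A (epsT H j x) := by
  obtain ⟨hh1, hh10, -, -⟩ := P.topX_KF H
  intro j x hx
  rcases I2_cases j with rfl | rfl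
  · exact valHt_nrm_coe P.hp P.hA (topX_FS_le _) hh1 x hx
  · exact valHt_nrm_ι0 P.hp P.hA H topX_wS_mem hh10 x hx

/-- the statement (SEP) for the concrete cover. -/
def TopXSep (A : ValuationSubring Qb) (M₁ p : ℕ) [NeZero M₁] [NeZero p] (ζ : Qbˣ) (h1 : Λ) : Prop :=
  ∀ (h10 : Λ) (H : CovHyp (IA A) (FS (M₁ * p)) (wS M₁ p) p (ζ : Qb) h1 h10)
    (he : ∀ (j : I2) (x : adjF (FS (M₁ * p)) h1), x ≠ 0 → Nrm A (epsT H j x))
    (i : I2) (k l : ZMod p), k ≠ l →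
      ∃ b : fixS (IA A) (adjF (FS (M₁ * p)) h1), IsIntegral (BT M₁ p A) b ∧
        vtT A H he (i, l) b < 1 ∧ vtT A H he (i, k) (b - 1) < 1

theorem topX_eT_algebraMap_C {h10 : Λ}
    (H : CovHyp (IA A) (FS (M₁ * p)) (wS M₁ p) p (ζ : Qb) h1 h10) (j : I2) {a : Qb}
    {x : fixS (IA A) (adjF (FS (M₁ * p)) h1)} (hx : (x : Λ) = HahnSeries.C a) :
    eT H j x = HahnSeries.C a := by
  have hw : ∀ c : Qb, wS M₁ p ⟨HahnSeries.C c, H.C_mem c⟩ = HahnSeries.C c := by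
    intro c
    rw [wS_apply]
    have e1 : (⟨(HahnSeries.C c : Λ), H.C_mem c⟩ : FN (M₁ * p)) = algebraMap Qb (FN (M₁ * p)) c := by
      apply Subtype.ext
      exact (ValThm_coe_algebraMap (M₁ * p) c).symm
    rw [e1, AlgEquiv.commutes]
    exact ValThm_coe_algebraMap (M₁ * p) c
  have e2 : toF1 x = ⟨HahnSeries.C a, le_adjF _ _ (H.C_mem a)⟩ := Subtype.ext hx
  rw [eT_apply, e2]
  exact epsT_C H hw j a

/-- **`PrepIn` + (SEP) ⟹ the conclusion of `MR.CStatement`.** -/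
theorem PrepIn.topX_main (P : PrepIn A M₁ p ℓ e ζ u h1) (SEP : TopXSep A M₁ p ζ h1)
    {c : Qb} {ab : LaurentSeries (kA A)} (hab : HasRed A (HahnSeries.C c * u ^ p) ab)
    (hab0 : ab ≠ 0) : PDiv (Rb A M₁) p ab := by
  have : Fact p.Prime := ⟨P.hp⟩
  obtain ⟨h10, u0, H, a1, S, S0, g, η, m, hG, hGu, ha1, hη, hS, hS0, hSne, hS0ne, hSfix, hS0fix,
    hg, hg0, hgfix, hδ, hm⟩ := P.out
  have he := P.topX_he H
  obtain ⟨hh1, hh10, -, -⟩ := P.topX_KF H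
  have sep := SEP h10 H he
  have hw : ∀ f : FS (M₁ * p),
      wS M₁ p f = ((wq M₁ p (⟨f.1, f.2⟩ : FN (M₁ * p)) : FN (M₁ * p)) : Λ) := fun _ => rfl
  have C := covT A H he P.hA hw sep
  have hB := TH.base A P.hM P.hp P.hpM P.hA
  -- `Ht = S ^ p`
  have hSp : S ^ p = u ^ p * (a1 : Λ) ^ p := by rw [hS, mul_pow]
  have hSpF1 : S ^ p ∈ adjF (FS (M₁ * p)) h1 := by
    rw [hSp]
    exact mul_mem (le_adjF _ _ P.ku.pow_mem) (pow_mem a1.2 p)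
  set Ht : fixS (IA A) (adjF (FS (M₁ * p)) h1) :=
    ⟨S ^ p, hSpF1, fun τ hτ => by rw [map_pow, hSfix τ hτ]⟩ with hHt
  set gE : fixS (IA A) (adjF (FS (M₁ * p)) h1) := ⟨g, hg, hgfix⟩ with hgE
  have hHt0 : Ht ≠ 0 := fun h => pow_ne_zero p hSne (congrArg Subtype.val h)
  have hgE0 : gE ≠ 0 := fun h => hg0 (congrArg Subtype.val h)
  have hto : toF1 Ht = ⟨u ^ p, le_adjF _ _ P.ku.pow_mem⟩ * a1 ^ p := Subtype.ext hSp
  have hδHt : ((H.δC Ht : fixS (IA A) (adjF (FS (M₁ * p)) h1)) : Λ)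
      = HahnSeries.C (η ^ p) * g ^ p * S ^ p := by
    rw [H.coe_δC, hto, map_mul, map_pow, hδ]
    have h1' : H.δ ⟨u ^ p, le_adjF _ _ P.ku.pow_mem⟩ = u ^ p :=
      H.coverDat.δ_F ⟨u ^ p, P.ku.pow_mem⟩
    rw [h1', hSp, map_pow]
    ring
  set cE : fixS (IA A) (adjF (FS (M₁ * p)) h1) := H.δC Ht / (gE ^ p * Ht) with hcEdef
  have hden : gE ^ p * Ht ≠ 0 := mul_ne_zero (pow_ne_zero p hgE0) hHt0
  have hcE : (cE : Λ) = HahnSeries.C (η ^ p) := by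
    have e1 : (cE : Λ) = ((H.δC Ht : fixS (IA A) (adjF (FS (M₁ * p)) h1)) : Λ) / (g ^ p * S ^ p) := rfl
    rw [e1, hδHt, mul_assoc, mul_div_cancel_right₀]
    exact mul_ne_zero (pow_ne_zero p hg0) (pow_ne_zero p hSne)
  have hδ' : H.δC Ht = cE * gE ^ p * Ht := by
    rw [hcEdef, mul_assoc, div_mul_cancel₀ _ hden]
  -- the constants
  have hπ : ((algebraMap (EC A (M₁ * p)) (fixS (IA A) (adjF (FS (M₁ * p)) h1))
      ((piT M₁ p A : BT M₁ p A) : EC A (M₁ * p)) : fixS (IA A) (adjF (FS (M₁ * p)) h1)) : Λ)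
      = HahnSeries.C (p : Qb) := by
    rw [coe_algebraMap_ec, coe_piT]
    exact ValThm_coe_algebraMap (M₁ * p) _
  have hfixc : FixS ((IA A : Subgroup GQ) : Set GQ) (HahnSeries.C (η ^ p) : Λ) := by
    have := cE.2.2
    rw [hcE] at this
    exact this
  set c₀ : EC A (M₁ * p) := ⟨⟨HahnSeries.C (η ^ p), GAL.C_mem_FL _ _⟩, hfixc⟩ with hc₀
  have hc₀E : algebraMap (EC A (M₁ * p)) (fixS (IA A) (adjF (FS (M₁ * p)) h1)) c₀ = cE :=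
    Subtype.ext hcE.symm
  have hc : ∀ b, ∃ m' : ℤ, vtT A H he b cE = vtT A H he b
      (algebraMap (EC A (M₁ * p)) (fixS (IA A) (adjF (FS (M₁ * p)) h1))
        ((piT M₁ p A : BT M₁ p A) : EC A (M₁ * p))) ^ ((p : ℤ) * m') := by
    rintro ⟨j, k⟩
    refine ⟨m, ?_⟩
    rw [← hc₀E, C.ext, C.ext, ← VT_algebraMap A H he hw, ← VT_algebraMap A H he hw]
    exact vi_gaussV_eta _ _ _ P.hp hm (topX_eT_algebraMap_C H j (hc₀E ▸ hcE))
      (topX_eT_algebraMap_C H j hπ)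
  -- the two base branches
  obtain ⟨⟨m1, φ1, hφ1, hr1⟩, ⟨m2, φ2, hφ2, hr2⟩⟩ := valHt_good P.hp P.hA H (topX_FS_le _)
    topX_wS_mem hh1 hh10 ℓ e P.he hGu hS hS0 hSne hS0ne hSfix hS0fix
  have h0 : ∀ i, ∃ m' : ℤ, vtT A H he (i, 0) Ht = vtT A H he (i, 0)
      (algebraMap (EC A (M₁ * p)) (fixS (IA A) (adjF (FS (M₁ * p)) h1))
        ((piT M₁ p A : BT M₁ p A) : EC A (M₁ * p))) ^ ((p : ℤ) * m') := by
    intro i
    rcases I2_cases i with rfl | rfl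
    · refine ⟨-m1, ?_⟩
      rw [vtT_zero, vtT_zero]
      exact valHt_gaussV _ _ _ P.hp (topX_eT_algebraMap_C H oo hπ) hφ1 hr1
    · refine ⟨-m2, ?_⟩
      rw [vtT_zero, vtT_zero]
      refine valHt_gaussV _ _ _ P.hp (topX_eT_algebraMap_C H zr hπ) hφ2 ?_
      have e1 : eT H zr Ht = S0 ^ p := by
        obtain ⟨-, -, ⟨U, hU, hU0⟩, -⟩ := hGu
        have e2 : (⟨u ^ p, le_adjF _ _ P.ku.pow_mem⟩ : adjF (FS (M₁ * p)) h1)
            = ⟨U, le_adjF _ _ U.2⟩ := Subtype.ext hU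
        rw [eT_apply, epsT_zr, hto, map_mul, map_pow, e2, H.ι0_F, hS0, mul_pow, hU0]
      rw [e1]
      exact hr2
  obtain ⟨e', he'0, hW⟩ := exists_norm_of_deck hB C p hgE0 hc hδ' h0
  refine pdivT A H he P.hM P.hpM P.hA hw sep (W := Ht * e' ^ p) hW (u := u)
    (b := (a1 : Λ) * (e' : Λ)) P.ku (mul_mem a1.2 e'.2.1)
    (mul_ne_zero (fun h => ha1 (Subtype.ext h)) (fun h => he'0 (Subtype.ext h))) ?_ hab hab0
  show S ^ p * (e' : Λ) ^ p = u ^ p * ((a1 : Λ) * (e' : Λ)) ^ p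
  rw [hSp, mul_pow]
  ring

end Fermat.Agent.MR.C
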